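import Fermat.Agent.FTau.Mult

/-!
# Fibres of extensions by modules of multiplicative type
-/

set_option autoImplicit false
set_option linter.unusedSectionVars false
set_option linter.style.haveILetI false

noncomputable section

namespace Fermat.Agent.FTau

open Fermat.Agent.Flat

variable {p : ℕ} {Ω : Type} [NormedField Ω] {I : Type} [Group I] [MulSemiringAction I Ω]
    [S : Setting p Ω I]

/-- Independence of characters. -/
theorem indep_ce {L : Type} [AddCommGroup L] [Fintype (Ch Ω L)] (d : Ch Ω L → Ω)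
    (h : ∀ l : L, ∑ ψ, d ψ * ce l ψ = 0) (ψ : Ch Ω L) : d ψ = 0 := by
  classical
  let j : Ch Ω L → (Multiplicative L →* Ω) := fun ψ =>
    (Units.coeHom Ω).comp (AddMonoidHom.toMultiplicativeLeft ψ)
  have hj : Function.Injective j := by
    intro ψ ψ' h
    apply ce_ext
    intro x
    exact DFunLike.congr_fun h (Multiplicative.ofAdd x)
  have h1 := (linearIndependent_monoidHom (Multiplicative L) Ω).comp j hj
  rw [Fintype.linearIndependent_iff] at h1
  refine h1 d ?_ ψ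
  funext l
  rw [Finset.sum_apply]
  exact h l.toAdd

variable {M : Type} [AddCommGroup M] [Finite M] {ρ : I → M → M} (D : Ord p Ω I ρ)

variable (p I) in
include S in
/-- the norm of `ζ - 1` for a `p`-th root of unity -/
theorem norm_root_sub_one {ζ : Ω} (hζ : ζ ^ p = 1) (h1 : ζ ≠ 1) : ‖ζ - 1‖ = rho p := by
  haveI := neZero_p p Ω I
  obtain ⟨i, -, hi⟩ := (zeta_spec p Ω I).eq_pow_of_pow_eq_one (k := p) hζ
  rw [← hi, ← zp_natCast]
  apply norm_zp_sub_one
  intro h0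
  rw [← hi, ← zp_natCast, h0, zp_zero] at h1
  exact h1 rfl

include D in
/-- **The fibre over a point**: characters with a unit in the fibre. -/
theorem exists_unit_char (hρ : IsAct ρ) (L : AddSubgroup M) (hL : ∀ σ, ∀ z ∈ L, ρ σ z ∈ L)
    {n : ℕ} (hn : ∀ z : L, p ^ n • z = 0)
    (hmult : ∀ (σ : I) (z : L) (ψ : Ch Ω L), ce (⟨ρ σ z, hL σ z z.2⟩ : L) ψ = σ • ce z ψ)
    (x : M) (hx : ∀ σ, ρ σ x - x ∈ L) {z : L} (hz : z ≠ 0) (hzp : p • z = 0) :
    ∃ (ψ : Ch Ω L) (a : Ω), ce z ψ ≠ 1 ∧ ‖a‖ = 1 ∧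
      ∀ σ, σ • a = a * ce (⟨ρ σ x - x, hx σ⟩ : L) ψ := by
  classical
  haveI := finite_ch p Ω I (M := L)
  have hft := Fintype.ofFinite (Ch Ω L)
  obtain ⟨h, hh, he⟩ := D.exists_norm_add_sub_eq x (z : M)
  have hr : rho p ≤ D.rad (z : M) := D.rho_le_rad (fun h0 => hz (Subtype.ext h0)) (n := n) (by
    have := hn z
    exact congrArg Subtype.val this)
  let ρL : I → L → L := fun σ z => ⟨ρ σ z, hL σ z z.2⟩
  have hρL : IsAct ρL :=
    { one := fun y => Subtype.ext (hρ.one y)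
      mul := fun σ τ y => Subtype.ext (hρ.mul σ τ y)
      add := fun σ y y' => Subtype.ext (hρ.add σ y y') }
  let DL := D.restrict (ρ' := ρL) L.subtype Subtype.val_injective (fun σ y => rfl)
  obtain ⟨ι, _, a, b, ha, hb, hab⟩ := D.comul h hh
  have hbL : ∀ i, ∃ c : Ch Ω L → RK p Ω I, ∀ l : L, b i l = ∑ ψ, (c ψ : Ω) * ce l ψ := fun i =>
    exists_coeff DL hρL hmult hn (h := fun l : L => b i l) (D.mem_restrict.2 ⟨b i, hb i, rfl⟩)
  choose c hc using hbL
  let A : Ch Ω L → Ω := fun ψ => ∑ i, a i x * (c i ψ : Ω)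
  have hA : ∀ l : L, h (x + l) = ∑ ψ, A ψ * ce l ψ := by
    intro l
    rw [hab]
    simp only [A, Finset.sum_mul]
    rw [Finset.sum_comm]
    refine Finset.sum_congr rfl fun i _ => ?_
    rw [hc, Finset.mul_sum]
    exact Finset.sum_congr rfl fun ψ _ => (mul_assoc _ _ _).symm
  have hA1 : ∀ ψ, ‖A ψ‖ ≤ 1 := by
    intro ψ
    refine norm_sum_le_of_le p Ω I _ _ one_pos.le fun i _ => ?_
    rw [norm_mul]
    exact mul_le_one₀ (D.norm_le_one (ha i) x) (norm_nonneg _) (norm_RK_le p Ω I _)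
  have hAσ : ∀ (σ : I) ψ, σ • A ψ = A ψ * ce (⟨ρ σ x - x, hx σ⟩ : L) ψ := by
    intro σ ψ
    rw [← sub_eq_zero]
    refine indep_ce (fun ψ => σ • A ψ - A ψ * ce (⟨ρ σ x - x, hx σ⟩ : L) ψ) (fun l => ?_) ψ
    obtain ⟨l', hl'⟩ : ∃ l' : L, ρL σ l' = l := ⟨ρL σ⁻¹ l, hρL.apply_inv σ l⟩
    have h1 : σ • h (x + (l' : M)) = h (x + ((⟨ρ σ x - x, hx σ⟩ + ρL σ l' : L) : M)) := by
      rw [← D.equi h hh, hρ.add]
      congr 1
      change ρ σ x + ρ σ l' = x + ((ρ σ x - x) + ρ σ l')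
      abel
    rw [hA, hA, Finset.smul_sum, ← sub_eq_zero, ← Finset.sum_sub_distrib] at h1
    rw [← h1]
    refine Finset.sum_congr rfl fun ψ _ => ?_
    rw [smul_mul', ce_add_left, hl', ← hmult σ l' ψ]
    change _ = _ * ce (ρL σ l') ψ - _
    rw [hl']
    ring
  by_contra hcon
  push Not at hcon
  have hlt : ‖h (x + (z : M)) - h x‖ < rho p := by
    have h0 : h x = ∑ ψ, A ψ := by
      have h1 := hA 0
      simp only [ZeroMemClass.coe_zero, add_zero, ce_zero_left, mul_one] at h1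
      exact h1
    rw [hA, h0, ← Finset.sum_sub_distrib]
    refine norm_sum_lt_of_lt p Ω I _ _ (rho_pos p Ω I) fun ψ _ => ?_
    have h1 : A ψ * ce z ψ - A ψ = A ψ * (ce z ψ - 1) := by ring
    rw [h1, norm_mul]
    by_cases hψ : ce z ψ = 1
    · rw [hψ, sub_self, norm_zero, mul_zero]
      exact rho_pos p Ω I
    · have h2 : ‖A ψ‖ < 1 := by
        refine lt_of_le_of_ne (hA1 ψ) fun h3 => ?_
        obtain ⟨σ, hσ⟩ := hcon ψ (A ψ) hψ h3
        exact hσ (hAσ σ ψ)
      have h3 : ce z ψ ^ p = 1 := by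
        have h4 : ce z ψ ^ p = ce (p • z) ψ := by
          simp [ce]
        rw [h4, hzp, ce_zero_left]
      rw [norm_root_sub_one p I h3 hψ]
      calc ‖A ψ‖ * rho p < 1 * rho p := mul_lt_mul_of_pos_right h2 (rho_pos p Ω I)
        _ = rho p := one_mul _
  rw [he] at hlt
  exact absurd hr (not_le.mpr hlt)

end Fermat.Agent.FTau
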