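import Fermat.Agent.FTau.QNorm
import Fermat.Agent.FTau.Fibre
import Fermat.Agent.HopfOrder.RatLoc

/-!
# Flat ordinary modules: the Kummer element at `p` acts trivially
-/

set_option autoImplicit false
set_option linter.unusedSectionVars false
set_option linter.style.haveILetI false

noncomputable section

namespace Fermat.Agent.FTau

open Fermat.Agent.Flat Fermat.Agent.HopfOrder GaloisRep

local notation "Qb" => AlgebraicClosure ℚ

variable {p : ℕ} [hp : Fact p.Prime] {A : ValuationSubring Qb}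

/-- **Conversion**: flat modules carry orders for the inertia group at `A`. -/
theorem exists_ord {j : Qb →+* PadicAlgCl p} (hj : IsEmb A j) (hA : A.LiesOverPrime p)
    (hp2 : p ≠ 2) {M : Type} [AddCommGroup M] [DistribMulAction GQ M] (hM : IsFlatMod p M) :
    haveI := setting_QN hj hp2
    Nonempty (Ord p (QN j) (A.inertiaSubgroupIn ℚ) (fun s (x : M) => (s : GQ) • x)) := by
  haveI := setting_QN hj hp2
  obtain ⟨H, hH, hequi⟩ := hM
  let K := RK p (QN j) (A.inertiaSubgroupIn ℚ)
  let cv : (M → Qb) → (M → QN j) := fun h => h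
  let Hs : Set (M → QN j) := {f | ∃ h ∈ H, cv h = f}
  let S : Submodule K (M → QN j) := Submodule.span _ Hs
  have hmem : ∀ h ∈ H, cv h ∈ S := fun h hh =>
    Submodule.subset_span ⟨h, hh, rfl⟩
  let ratRK : ratLocalizedAt p → K := fun r =>
    ⟨algebraMap (ratLocalizedAt p) Qb r, (hj _).mp (algebraMap_mem_of_liesOver p A hA r),
      fun σ => by
        change (σ : GQ) (algebraMap (ratLocalizedAt p) Qb r) = _
        rw [IsScalarTower.algebraMap_apply (ratLocalizedAt p) ℚ Qb, AlgEquiv.commutes]⟩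
  have hone : (1 : M → QN j) ∈ S := hmem 1 H.one_mem
  have hmul : ∀ f g : M → QN j, f ∈ S → g ∈ S → f * g ∈ S := by
    intro f g hf hg
    have h1 := Submodule.mul_mem_mul hf hg
    rw [Submodule.span_mul_span] at h1
    refine Submodule.span_mono ?_ h1
    rintro _ ⟨_, ⟨h, hh, rfl⟩, _, ⟨h', hh', rfl⟩, rfl⟩
    exact ⟨h * h', H.mul_mem hh hh', rfl⟩
  refine ⟨{ H := S.toSubalgebra hone hmul
            fg := ?_
            equi := ?_
            comul := ?_
            sep := ?_ }⟩
  · -- finite generation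
    classical
    have hfin := hH.finite
    obtain ⟨t, ht⟩ := (Module.Finite.iff_fg (N := Subalgebra.toSubmodule H)).mp hfin
    refine ⟨t.image cv, ?_⟩
    have h1 : Subalgebra.toSubmodule (S.toSubalgebra hone hmul) = S := rfl
    rw [h1]
    apply le_antisymm
    · rw [Submodule.span_le]
      intro f hf
      rw [Finset.coe_image] at hf
      obtain ⟨h, hh, rfl⟩ := hf
      refine hmem h ?_
      have h2 : h ∈ Submodule.span (ratLocalizedAt p) (t : Set (M → Qb)) :=
        Submodule.subset_span hh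
      rw [ht] at h2
      exact h2
    · rw [Submodule.span_le]
      rintro _ ⟨h, hh, rfl⟩
      have hh' : h ∈ Submodule.span (ratLocalizedAt p) (t : Set (M → Qb)) := by rw [ht]; exact hh
      clear hh
      induction hh' using Submodule.span_induction with
      | mem x hx =>
        exact Submodule.subset_span (by rw [Finset.coe_image]; exact ⟨x, hx, rfl⟩)
      | zero => exact Submodule.zero_mem _
      | add x y _ _ hx hy => exact Submodule.add_mem _ hx hy
      | smul r x _ hx =>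
        have h3 : cv (r • x) = ratRK r • cv x := by
          funext y
          rw [Pi.smul_apply, smul_RK]
          exact Algebra.smul_def r (x y)
        rw [SetLike.mem_coe, h3]
        exact Submodule.smul_mem _ _ hx
  · -- equivariance
    intro f hf σ x
    change f ∈ S at hf
    induction hf using Submodule.span_induction with
    | mem f hf =>
      obtain ⟨h, hh, rfl⟩ := hf
      exact hequi h hh σ x
    | zero => simp
    | add f g _ _ hf hg => rw [Pi.add_apply, Pi.add_apply, hf, hg, smul_add]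
    | smul c f _ hf =>
      rw [Pi.smul_apply, Pi.smul_apply, smul_RK, smul_RK, hf, smul_mul', c.2.2 σ]
  · -- comultiplication
    let cvv : (M × M → Qb) → (M × M → QN j) := fun h => h
    have hcl : ∀ φ : M × M → Qb, φ ∈ Submodule.span (ratLocalizedAt p)
        {φ : M × M → Qb | ∃ a ∈ H, ∃ b ∈ H, φ = fun z => a z.1 * b z.2} →
        ∃ (ι : Type) (_ : Fintype ι) (a b : ι → M → QN j), (∀ i, a i ∈ S) ∧
          (∀ i, b i ∈ S) ∧ ∀ x y, cvv φ (x, y) = ∑ i, a i x * b i y := by
      intro φ hφ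
      induction hφ using Submodule.span_induction with
      | mem φ hφ =>
        obtain ⟨a, ha, b, hb, rfl⟩ := hφ
        exact ⟨PUnit, inferInstance, fun _ => cv a, fun _ => cv b, fun _ => hmem a ha,
          fun _ => hmem b hb, fun x y => by
            rw [Fintype.sum_unique]
            rfl⟩
      | zero => exact ⟨PEmpty, inferInstance, fun i => i.elim, fun i => i.elim, fun i => i.elim,
          fun i => i.elim, fun x y => by
            rw [Fintype.sum_empty]
            rfl⟩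
      | add f g _ _ hf hg =>
        obtain ⟨ι, s, a, b, ha, hb, hab⟩ := hf
        obtain ⟨κ, t, c, d, hc, hd, hcd⟩ := hg
        refine ⟨ι ⊕ κ, inferInstance, Sum.elim a c, Sum.elim b d, ?_, ?_, fun x y => ?_⟩
        · rintro (i | i)
          · exact ha i
          · exact hc i
        · rintro (i | i)
          · exact hb i
          · exact hd i
        · rw [Fintype.sum_sum_type]
          exact congrArg₂ (· + ·) (hab x y) (hcd x y)
      | smul r f _ hf =>
        obtain ⟨ι, s, a, b, ha, hb, hab⟩ := hf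
        refine ⟨ι, s, fun i => ratRK r • a i, b, fun i => S.smul_mem _ (ha i), hb,
          fun x y => ?_⟩
        have h3 : (cvv (r • f) (x, y) : QN j) = (ratRK r : QN j) * cvv f (x, y) :=
          Algebra.smul_def r (f (x, y))
        rw [h3, hab, Finset.mul_sum]
        refine Finset.sum_congr rfl fun i _ => ?_
        change _ = (ratRK r : QN j) * a i x * b i y
        rw [mul_assoc]
    intro f hf
    change f ∈ S at hf
    induction hf using Submodule.span_induction with
    | mem f hf =>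
      obtain ⟨h, hh, rfl⟩ := hf
      exact hcl _ (hH.comul h hh)
    | zero => exact ⟨PEmpty, inferInstance, fun i => i.elim, fun i => i.elim, fun i => i.elim,
        fun i => i.elim, fun x y => by simp⟩
    | add f g _ _ hf hg =>
      obtain ⟨ι, s, a, b, ha, hb, hab⟩ := hf
      obtain ⟨κ, t, c, d, hc, hd, hcd⟩ := hg
      refine ⟨ι ⊕ κ, inferInstance, Sum.elim a c, Sum.elim b d, ?_, ?_, fun x y => ?_⟩
      · rintro (i | i)
        · exact ha i
        · exact hc i
      · rintro (i | i)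
        · exact hb i
        · exact hd i
      · rw [Pi.add_apply, hab, hcd, Fintype.sum_sum_type]
        rfl
    | smul r f _ hf =>
      obtain ⟨ι, s, a, b, ha, hb, hab⟩ := hf
      refine ⟨ι, s, fun i => r • a i, b, fun i => Subalgebra.smul_mem _ (ha i) r, hb,
        fun x y => ?_⟩
      rw [Pi.smul_apply, hab, Finset.smul_sum]
      refine Finset.sum_congr rfl fun i _ => ?_
      change (r : QN j) * (a i x * b i y) = (r : QN j) * a i x * b i y
      rw [mul_assoc]
  · -- separation of points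
    intro x y hxy
    obtain ⟨h, hh, hne⟩ := hH.separates x y hxy
    exact ⟨_, hmem h hh, hne⟩

/-- **[FT]** Kummer elements at `p` act trivially on flat extensions of unramified modules by
modules of multiplicative type. -/
theorem tau_trivial (hA : A.LiesOverPrime p) (hp2 : p ≠ 2) {τ : GQ}
    (hτ : τ ∈ A.inertiaSubgroupIn ℚ)
    (hu : ∀ (n : ℕ) (w : Qb), A.valuation w = 1 →
      (∀ s ∈ A.inertiaSubgroupIn ℚ, s (w ^ (p ^ n)) = w ^ (p ^ n)) → τ w = w)
    {M : Type} [AddCommGroup M] [Finite M] [DistribMulAction GQ M] (hM : IsFlatMod p M)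
    (L : AddSubgroup M) {n : ℕ} (hn : ∀ z ∈ L, p ^ n • z = 0)
    (hL : ∀ s ∈ A.inertiaSubgroupIn ℚ, ∀ z ∈ L, ∀ k : ℕ,
      (∀ μ : Qb, μ ^ p ^ n = 1 → s μ = μ ^ k) → s • z = k • z)
    (x : M) (hx : ∀ s ∈ A.inertiaSubgroupIn ℚ, s • x - x ∈ L) : τ • x = x := by
  obtain ⟨j, hj⟩ := exists_emb hA
  haveI := setting_QN hj hp2
  let toQ : QN j → Qb := fun a => a
  obtain ⟨D⟩ := exists_ord hj hA hp2 hM
  have hρ : IsAct (fun (s : A.inertiaSubgroupIn ℚ) (x : M) => (s : GQ) • x) :=
    { one := fun x => one_smul GQ x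
      mul := fun σ τ x => mul_smul (σ : GQ) (τ : GQ) x
      add := fun σ x y => smul_add (σ : GQ) x y }
  have hne : NeZero (p ^ n) := ⟨(pow_pos hp.out.pos n).ne'⟩
  obtain ⟨ζ, hζ⟩ := HasEnoughRootsOfUnity.exists_primitiveRoot Qb (p ^ n)
  have hk : ∀ s : GQ, ∃ k : ℕ, ∀ μ : Qb, μ ^ p ^ n = 1 → s μ = μ ^ k := by
    intro s
    obtain ⟨k, -, hk⟩ := hζ.eq_pow_of_pow_eq_one (ξ := s ζ) (by
      rw [← map_pow, hζ.pow_eq_one, map_one])
    refine ⟨k, fun μ hμ => ?_⟩
    obtain ⟨i, -, rfl⟩ := hζ.eq_pow_of_pow_eq_one hμ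
    rw [map_pow, ← hk, ← pow_mul, ← pow_mul, mul_comm]
  have hLs : ∀ (σ : A.inertiaSubgroupIn ℚ), ∀ z ∈ L, (σ : GQ) • z ∈ L := by
    intro σ z hz
    obtain ⟨k, hk⟩ := hk σ
    rw [hL σ σ.2 z hz k hk]
    exact L.nsmul_mem hz k
  have hnL : ∀ z : L, p ^ n • z = 0 := fun z => Subtype.ext (hn z z.2)
  have hcer : ∀ (z : L) (ψ : Ch (QN j) L), (ce z ψ : QN j) ^ p ^ n = 1 := by
    intro z ψ
    have h4 : ce z ψ ^ p ^ n = ce (p ^ n • z) ψ := by
      simp [ce]
    rw [h4, hnL, ce_zero_left]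
  have hmult : ∀ (σ : A.inertiaSubgroupIn ℚ) (z : L) (ψ : Ch (QN j) L),
      ce (⟨(σ : GQ) • (z : M), hLs σ z z.2⟩ : L) ψ = σ • ce z ψ := by
    intro σ z ψ
    obtain ⟨k, hk⟩ := hk σ
    have h1 : (⟨(σ : GQ) • (z : M), hLs σ z z.2⟩ : L) = k • z :=
      Subtype.ext (hL σ σ.2 z z.2 k hk)
    have h2 : ce (k • z) ψ = ce z ψ ^ k := by
      simp [ce]
    rw [h1, h2]
    exact (hk (toQ (ce z ψ)) (hcer z ψ)).symm
  by_contra hcon
  set c : L := ⟨τ • x - x, hx τ hτ⟩ with hc
  have hc0 : c ≠ 0 := fun h => hcon (sub_eq_zero.mp (congrArg Subtype.val h))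
  -- a multiple of `c` of order `p`
  obtain ⟨m, hm1, hm2⟩ : ∃ m : ℕ, p ^ m • c ≠ 0 ∧ p • (p ^ m • c) = 0 := by
    classical
    have hex : ∃ m, p ^ m • c = 0 := ⟨n, hnL c⟩
    have h1 := Nat.find_spec hex
    have h2 : Nat.find hex ≠ 0 := by
      intro h0
      rw [h0, pow_zero, one_smul] at h1
      exact hc0 h1
    obtain ⟨m, hm⟩ := Nat.exists_eq_succ_of_ne_zero h2
    refine ⟨m, Nat.find_min hex (by rw [hm]; exact Nat.lt_succ_self m), ?_⟩
    rw [← mul_smul, ← pow_succ']
    rw [hm] at h1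
    exact h1
  obtain ⟨ψ, a, hψ, ha, haσ⟩ := exists_unit_char D hρ L hLs hnL hmult x
    (fun σ => hx σ σ.2) hm1 hm2
  have h1 : τ (toQ a) = toQ a := by
    refine hu n (toQ a) ((hj.eq_iff _).mpr ha) fun s hs => ?_
    have h2 : s (toQ a) = toQ (a * ce (⟨s • x - x, hx s hs⟩ : L) ψ) := haσ ⟨s, hs⟩
    have h3 : s ((toQ a) ^ p ^ n) = (s (toQ a)) ^ p ^ n := map_pow s _ _
    rw [h3, h2]
    have h4 := hcer (⟨s • x - x, hx s hs⟩ : L) ψ
    have h5 : (a * ce (⟨s • x - x, hx s hs⟩ : L) ψ) ^ p ^ n = a ^ p ^ n := by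
      rw [mul_pow, h4, mul_one]
    exact h5
  have h2 : a = a * ce c ψ := by
    have h3 := haσ ⟨τ, hτ⟩
    have h4 : (⟨τ, hτ⟩ : A.inertiaSubgroupIn ℚ) • a = a := h1
    rw [h4] at h3
    exact h3
  have ha0 : a ≠ 0 := by
    intro h0
    rw [h0, norm_zero] at ha
    exact zero_ne_one ha
  have h3 : ce c ψ = 1 := by
    have h4 : a * 1 = a * ce c ψ := by rw [mul_one]; exact h2
    exact (mul_left_cancel₀ ha0 h4).symm
  apply hψ
  have h4 : ce (p ^ m • c) ψ = ce c ψ ^ p ^ m := by
    simp [ce]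
  rw [h4, h3, one_pow]

/-- the form with a `Pair` -/
theorem Pair.tau_trivial (hA : A.LiesOverPrime p) (hp2 : p ≠ 2) {φ τ : GQ}
    (h : ORD.Pair p A φ τ)
    {M : Type} [AddCommGroup M] [Finite M] [DistribMulAction GQ M] (hM : IsFlatMod p M)
    (L : AddSubgroup M) {n : ℕ} (hn : ∀ z ∈ L, p ^ n • z = 0)
    (hL : ∀ s ∈ A.inertiaSubgroupIn ℚ, ∀ z ∈ L, ∀ k : ℕ,
      (∀ μ : Qb, μ ^ p ^ n = 1 → s μ = μ ^ k) → s • z = k • z)
    (x : M) (hx : ∀ s ∈ A.inertiaSubgroupIn ℚ, s • x - x ∈ L) : τ • x = x :=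
  FTau.tau_trivial hA hp2 h.tau_mem h.tau_unit hM L hn hL x hx

end Fermat.Agent.FTau
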