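import Fermat.Agent.Flat.Char

/-!
# Orders on modules of multiplicative type

If inertia acts on `L` through the cyclotomic character then every order is contained in the
lattice of characters.
-/

set_option autoImplicit false
set_option linter.unusedSectionVars false
set_option linter.style.haveILetI false

noncomputable section

namespace Fermat.Agent.FTau

open Fermat.Agent.Flat

variable {p : ℕ} {Ω : Type} [NormedField Ω] {I : Type} [Group I] [MulSemiringAction I Ω]
    [S : Setting p Ω I]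

/-- An etale order contains the indicator functions of the points. -/
theorem single_mem {N : Type} [AddCommGroup N] [Finite N] {ρ : I → N → N} (D : Ord p Ω I ρ)
    (hfix : ∀ σ x, ρ σ x = x) {n : ℕ} (hn : ∀ z : N, p ^ n • z = 0) (χ₀ : N) [DecidableEq N] :
    (fun χ => if χ = χ₀ then (1 : Ω) else 0) ∈ D.H := by
  classical
  have := Fintype.ofFinite N
  have hfx : ∀ h ∈ D.H, ∀ (x : N) (σ : I), σ • h x = h x := by
    intro h hh x σ
    rw [← D.equi h hh, hfix]
  have key : ∀ χ : N, χ ≠ χ₀ → ∃ u ∈ D.H, u χ₀ = 1 ∧ u χ = 0 := by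
    intro χ hχ
    obtain ⟨h, hh, he⟩ := D.exists_norm_add_sub_eq χ (χ₀ - χ)
    rw [D.rad_eq_one_of_fixed (sub_ne_zero.mpr hχ.symm) (hn _) (fun σ => hfix σ 0)
      (fun σ => hfix σ _), add_sub_cancel] at he
    set d := h χ₀ - h χ with hd
    have hd0 : d ≠ 0 := by
      rw [← norm_pos_iff, he]; exact one_pos
    have hdfix : ∀ σ : I, σ • d = d := fun σ => by rw [hd, smul_sub, hfx h hh, hfx h hh]
    let c : RK p Ω I := ⟨h χ, D.norm_le_one hh χ, hfx h hh χ⟩
    let e : RK p Ω I := ⟨d⁻¹, by rw [norm_inv, he, inv_one], fun σ => by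
      rw [smul_inv'', hdfix]⟩
    refine ⟨e • (h - algebraMap (RK p Ω I) (N → Ω) c), D.H.smul_mem
      (D.H.sub_mem hh (D.H.algebraMap_mem c)) e, ?_, ?_⟩
    · change d⁻¹ * (h χ₀ - h χ) = 1
      rw [← hd, inv_mul_cancel₀ hd0]
    · change d⁻¹ * (h χ - h χ) = 0
      rw [sub_self, mul_zero]
  choose! u hu hu1 hu0 using key
  have h1 : (fun χ => if χ = χ₀ then (1 : Ω) else 0) =
      ∏ χ ∈ Finset.univ.erase χ₀, u χ := by
    funext χ
    rw [Finset.prod_apply]
    split_ifs with h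
    · rw [h]
      refine (Finset.prod_eq_one fun χ' hχ' => hu1 χ' (Finset.ne_of_mem_erase hχ')).symm
    · exact (Finset.prod_eq_zero (f := fun c => u c χ) (i := χ)
        (Finset.mem_erase.mpr ⟨h, Finset.mem_univ _⟩) (hu0 χ h)).symm
  rw [h1]
  exact D.H.prod_mem fun χ hχ => hu χ (Finset.ne_of_mem_erase hχ)

variable (p Ω I) in
include S in
theorem card_ch (M : Type) [AddCommGroup M] [Finite M] : Nat.card (Ch Ω M) = Nat.card M := by
  haveI := S.charZero
  haveI := S.isAlgClosed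
  haveI : NeZero (Monoid.exponent (Multiplicative M)) := ⟨Monoid.exponent_ne_zero_of_finite⟩
  haveI : NeZero ((Monoid.exponent (Multiplicative M) : ℕ) : Ω) :=
    ⟨by exact_mod_cast NeZero.ne _⟩
  obtain ⟨E⟩ := CommGroup.monoidHom_mulEquiv_of_hasEnoughRootsOfUnity (Multiplicative M) Ω
  have h1 : Nat.card (Ch Ω M) = Nat.card (Multiplicative M →* Ωˣ) :=
    Nat.card_congr (AddMonoidHom.toMultiplicativeLeft)
  rw [h1, Nat.card_congr E.toEquiv]
  exact Nat.card_congr Multiplicative.toAdd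

/-- **Orders on multiplicative modules are lattices of characters.** -/
theorem exists_coeff {L : Type} [AddCommGroup L] [Finite L] {ρ : I → L → L} (D : Ord p Ω I ρ)
    (hρ : IsAct ρ) (hmult : ∀ (σ : I) (x : L) (ψ : Ch Ω L), ce (ρ σ x) ψ = σ • ce x ψ)
    {n : ℕ} (hn : ∀ z : L, p ^ n • z = 0) [Fintype (Ch Ω L)] {h : L → Ω} (hh : h ∈ D.H) :
    ∃ c : Ch Ω L → RK p Ω I, ∀ x, h x = ∑ ψ, (c ψ : Ω) * ce x ψ := by
  classical
  obtain ⟨D', hD'⟩ := D.exists_dual hρ.zero ce (isPairing_ce (Ω := Ω) hρ) fun _ _ => ce_ext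
  obtain ⟨m, b, b', hb'⟩ := D.exists_basis
  let φ : Fin m → Ch Ω L → Ω := fun i y => b'.repr (fun x => ce x y) i
  have hφ : ∀ x y, ce x y = ∑ i, φ i y * (b i : L → Ω) x := by
    intro x y
    have h1 := congrFun (b'.sum_repr (fun x => ce x y)) x
    rw [Finset.sum_apply] at h1
    rw [← h1]
    refine Finset.sum_congr rfl fun i _ => ?_
    rw [Pi.smul_apply, smul_eq_mul, hb']
  have hfix : ∀ (σ : I) (χ : Ch Ω L), cact hρ σ χ = χ := by
    intro σ χ
    apply ce_ext
    intro x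
    rw [ce_cact, ← hmult, hρ.apply_inv]
  have hnch : ∀ χ : Ch Ω L, p ^ n • χ = 0 := by
    intro χ
    apply ce_ext
    intro x
    rw [ce_zero_right]
    have h1 : ce x (p ^ n • χ) = ce (p ^ n • x) χ := by
      simp [ce]
    rw [h1, hn, ce_zero_left]
  have hsingle := fun ψ : Ch Ω L => hD'.2 (Ch Ω L) id m φ (fun i => (b i : L → Ω))
    (fun i => (b i).2) hφ _ (single_mem D' hfix hnch ψ)
  choose C hC using hsingle
  -- the two matrices are inverse to each other
  let MC : Matrix (Ch Ω L) (Fin m) Ω := fun ψ i => (C ψ i : Ω)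
  let MΦ : Matrix (Fin m) (Ch Ω L) Ω := fun i y => φ i y
  have hmul : MC * MΦ = 1 := by
    ext ψ y
    rw [Matrix.mul_apply, Matrix.one_apply]
    have h1 := hC ψ y
    change ∑ i, (C ψ i : Ω) * φ i y = _
    rw [← h1]
    simp only [id]
    by_cases h : y = ψ
    · rw [if_pos h, if_pos h.symm]
    · rw [if_neg h, if_neg (fun h' => h h'.symm)]
  have hcard : Fintype.card (Ch Ω L) = Fintype.card (Fin m) := by
    have h1 := card_ch p Ω I L
    rw [Nat.card_eq_fintype_card] at h1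
    rw [h1, Fintype.card_fin]
    have := Fintype.ofFinite L
    have h2 := Module.finrank_eq_card_basis b'
    rw [Module.finrank_fintype_fun_eq_card, Fintype.card_fin] at h2
    rw [Nat.card_eq_fintype_card, h2]
  have hmul' : MΦ * MC = 1 := (Matrix.mul_eq_one_comm_of_card_eq _ _ _ hcard).mp hmul
  have hbi : ∀ i x, (b i : L → Ω) x = ∑ ψ, (C ψ i : Ω) * ce x ψ := by
    intro i x
    have h1 : ∀ ψ, (C ψ i : Ω) * ce x ψ = ∑ j, (MΦ j ψ * MC ψ i) * (b j : L → Ω) x := by
      intro ψ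
      rw [hφ, Finset.mul_sum]
      refine Finset.sum_congr rfl fun j _ => ?_
      change (C ψ i : Ω) * (φ j ψ * (b j : L → Ω) x) = (φ j ψ * (C ψ i : Ω)) * (b j : L → Ω) x
      ring
    rw [Finset.sum_congr rfl fun ψ _ => h1 ψ, Finset.sum_comm]
    have h2 : ∀ j, ∑ ψ, (MΦ j ψ * MC ψ i) * (b j : L → Ω) x =
        (1 : Matrix (Fin m) (Fin m) Ω) j i * (b j : L → Ω) x := by
      intro j
      rw [← Finset.sum_mul, ← hmul', Matrix.mul_apply]
    rw [Finset.sum_congr rfl fun j _ => h2 j, Finset.sum_eq_single i]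
    · rw [Matrix.one_apply_eq, one_mul]
    · intro j _ hj
      rw [Matrix.one_apply_ne hj, zero_mul]
    · intro h; exact absurd (Finset.mem_univ i) h
  refine ⟨fun ψ => ∑ i, b.repr ⟨h, hh⟩ i * C ψ i, fun x => ?_⟩
  have h1 := congrArg (fun z : D.H => (z : L → Ω) x) (b.sum_repr ⟨h, hh⟩)
  simp only at h1
  rw [← h1, AddSubmonoidClass.coe_finsetSum, Finset.sum_apply]
  have h2 : ∀ i, ((b.repr ⟨h, hh⟩ i • b i : D.H) : L → Ω) x =
      ∑ ψ, ((b.repr ⟨h, hh⟩ i : RK p Ω I) : Ω) * ((C ψ i : Ω) * ce x ψ) := by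
    intro i
    rw [← Finset.mul_sum, ← hbi]
    rfl
  rw [Finset.sum_congr rfl fun i _ => h2 i, Finset.sum_comm]
  refine Finset.sum_congr rfl fun ψ _ => ?_
  rw [AddSubmonoidClass.coe_finsetSum, Finset.sum_mul]
  refine Finset.sum_congr rfl fun i _ => ?_
  rw [← mul_assoc]
  rfl

end Fermat.Agent.FTau
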