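import Fermat.Agent.ORD.Pair
import Fermat.Agent.Flat.LocalSetting
import Fermat.Agent.BadRed.Arch
import Fermat.Agent.PTC.Inertia
import Fermat.Prelude.Def_GaloisRep_CompletionBridge

/-!
# `ℚ̄` with the norm given by a valuation subring over `p`, as an instance of `Setting`
-/

set_option autoImplicit false
set_option linter.unusedSectionVars false

noncomputable section

namespace Fermat.Agent.FTau

open Fermat.Agent.Flat
open scoped Pointwise

local notation "Qb" => AlgebraicClosure ℚ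
local notation "GQ" => AlgebraicClosure ℚ ≃ₐ[ℚ] AlgebraicClosure ℚ

variable {p : ℕ} [hp : Fact p.Prime] {A : ValuationSubring Qb}

/-- embeddings with valuation ring `A` -/
def IsEmb (A : ValuationSubring Qb) (j : Qb →+* PadicAlgCl p) : Prop :=
  ∀ x, x ∈ A ↔ ‖j x‖ ≤ 1

theorem mem_comap_iff (j : Qb →+* PadicAlgCl p) (x : Qb) :
    x ∈ (padicIntegers p).comap j ↔ ‖j x‖ ≤ 1 := by
  show j x ∈ padicIntegers p ↔ _
  rw [mem_padicIntegers_iff]
  exact_mod_cast Iff.rfl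

theorem IsEmb.lt_iff {j : Qb →+* PadicAlgCl p} (hj : IsEmb A j) (x : Qb) :
    A.valuation x < 1 ↔ ‖j x‖ < 1 := by
  rcases eq_or_ne x 0 with rfl | hx
  · simp
  · have h0 : 0 < ‖j x‖ := norm_pos_iff.2 ((map_ne_zero j).2 hx)
    have h1 : A.valuation x < 1 ↔ ¬ x⁻¹ ∈ A := by
      rw [← A.valuation_le_one_iff, map_inv₀, not_le, one_lt_inv₀]
      exact (Valuation.pos_iff _).2 hx
    rw [h1, hj, map_inv₀, norm_inv, inv_le_one₀ h0, not_le]

theorem IsEmb.eq_iff {j : Qb →+* PadicAlgCl p} (hj : IsEmb A j) (x : Qb) :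
    A.valuation x = 1 ↔ ‖j x‖ = 1 := by
  have h1 := hj.lt_iff x
  have h2 : A.valuation x ≤ 1 ↔ ‖j x‖ ≤ 1 := (A.valuation_le_one_iff x).trans (hj x)
  rw [le_antisymm_iff, le_antisymm_iff, h2, ← not_lt (a := A.valuation x), h1, not_lt]

theorem norm_p' : ‖((p : ℕ) : PadicAlgCl p)‖ = (p : ℝ)⁻¹ := by
  have h : algebraMap ℚ_[p] (PadicAlgCl p) (p : ℚ_[p]) = (p : PadicAlgCl p) :=
    map_natCast (algebraMap ℚ_[p] (PadicAlgCl p)) p
  have h1 := PadicAlgCl.norm_extends p (p : ℚ_[p])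
  rw [← h]
  exact h1.trans Padic.norm_p

theorem exists_emb (hA : A.LiesOverPrime p) : ∃ j : Qb →+* PadicAlgCl p, IsEmb A j := by
  let j₀ : Qb →+* PadicAlgCl p := (padicEmbedding p : Qb →+* PadicAlgCl p)
  let A₀ : ValuationSubring Qb := (padicIntegers p).comap j₀
  have h0 : IsEmb A₀ j₀ := fun x => mem_comap_iff j₀ x
  have hA₀ : A₀.LiesOverPrime p := by
    show ((p : ℕ) : Qb) ∈ A₀.nonunits
    rw [ValuationSubring.mem_nonunits_iff, h0.lt_iff, map_natCast, norm_p']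
    exact inv_lt_one_of_one_lt₀ (by exact_mod_cast hp.out.one_lt)
  obtain ⟨σ, hσ⟩ := Frob.exists_smul_eq hp.out hA₀ hA
  refine ⟨j₀.comp ((σ⁻¹ : GQ) : Qb →+* Qb), fun x => ?_⟩
  rw [hσ, ValuationSubring.mem_pointwise_smul_iff_inv_smul_mem, h0]
  rfl

variable (j : Qb →+* PadicAlgCl p)

/-- `ℚ̄` with the norm induced by `j`. -/
def QN (_ : Qb →+* PadicAlgCl p) : Type := Qb

instance : Field (QN j) := inferInstanceAs (Field Qb)

instance : NormedField (QN j) :=
  NormedField.induced (QN j) (PadicAlgCl p) (j : QN j →+* PadicAlgCl p) (RingHom.injective _)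

theorem norm_QN (x : QN j) : ‖x‖ = ‖j x‖ := rfl

instance (H : Subgroup GQ) : MulSemiringAction H (QN j) :=
  inferInstanceAs (MulSemiringAction H Qb)

theorem smul_QN (H : Subgroup GQ) (s : H) (x : QN j) : s • x = (s : GQ) x := rfl

variable {j}

theorem IsEmb.norm_zpow (hj : IsEmb A j) {x : Qb} (hx : x ≠ 0) {m : ℕ} {n : ℤ}
    (h : A.valuation x ^ m = A.valuation (p : Qb) ^ n) : ‖j x‖ ^ m = (p : ℝ) ^ (-n) := by
  have hp0 : (p : Qb) ≠ 0 := by exact_mod_cast hp.out.ne_zero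
  have h1 : A.valuation (x ^ m * (p : Qb) ^ (-n)) = 1 := by
    rw [map_mul, map_pow, h, map_zpow₀, ← zpow_add₀ ((map_ne_zero _).mpr hp0), add_neg_cancel,
      zpow_zero]
  rw [hj.eq_iff, map_mul, map_pow, map_zpow₀, map_natCast, norm_mul, norm_pow,
    _root_.norm_zpow, norm_p'] at h1
  have hp' : (p : ℝ) ≠ 0 := by exact_mod_cast hp.out.ne_zero
  rw [inv_zpow, zpow_neg, inv_inv] at h1
  rw [zpow_neg]
  exact eq_inv_of_mul_eq_one_left h1

theorem IsEmb.norm_fix (hj : IsEmb A j) {σ : GQ} (hσ : ∀ x, σ x ∈ A ↔ x ∈ A) (x : Qb) :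
    ‖j (σ x)‖ = ‖j x‖ := by
  rcases eq_or_ne x 0 with rfl | hx
  · rw [map_zero]
  have hA : A.LiesOverPrime p := by
    show ((p : ℕ) : Qb) ∈ A.nonunits
    rw [ValuationSubring.mem_nonunits_iff, hj.lt_iff, map_natCast, norm_p']
    exact inv_lt_one_of_one_lt₀ (by exact_mod_cast hp.out.one_lt)
  obtain ⟨m, n, hm, h⟩ := BadRed.exists_val_pow hp.out hA hx
  have h1 := hj.norm_zpow hx h
  have hval : ∀ y, A.valuation (σ y) = 1 ↔ A.valuation y = 1 := by
    intro y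
    rcases eq_or_ne y 0 with rfl | hy
    · rw [map_zero]
    have e1 : ∀ z : Qb, z ≠ 0 → (A.valuation z = 1 ↔ z ∈ A ∧ z⁻¹ ∈ A) := by
      intro z hz
      rw [← A.valuation_le_one_iff, ← A.valuation_le_one_iff, map_inv₀, le_antisymm_iff,
        inv_le_one₀ ((Valuation.pos_iff _).2 hz)]
    rw [e1 _ ((map_ne_zero σ).mpr hy), e1 _ hy, hσ, ← map_inv₀, hσ]
  have hp0 : (p : Qb) ≠ 0 := by exact_mod_cast hp.out.ne_zero
  have h2 : A.valuation (σ x) ^ m = A.valuation (p : Qb) ^ n := by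
    have h3 : A.valuation (x ^ m * (p : Qb) ^ (-n)) = 1 := by
      rw [map_mul, map_pow, h, map_zpow₀, ← zpow_add₀ ((map_ne_zero _).mpr hp0), add_neg_cancel,
        zpow_zero]
    rw [← hval, map_mul, map_pow, map_zpow₀, map_natCast, map_mul, map_pow, map_zpow₀,
      zpow_neg] at h3
    rwa [mul_inv_eq_one₀ (zpow_ne_zero _ ((map_ne_zero _).mpr hp0))] at h3
  have h3 := hj.norm_zpow ((map_ne_zero σ).mpr hx) h2
  exact (pow_left_inj₀ (norm_nonneg _) (norm_nonneg _) hm.ne').mp (h3.trans h1.symm)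

theorem exists_preimage_teich (j : Qb →+* PadicAlgCl p) {k : ℕ} (hk : 0 < k) {s : PadicAlgCl p}
    (hs : s ^ p ^ k = s) : ∃ t : Qb, j t = s := by
  rcases eq_or_ne s 0 with rfl | h0
  · exact ⟨0, map_zero j⟩
  have hN : p ^ k - 1 ≠ 0 := by
    have := Nat.one_lt_pow hk.ne' hp.out.one_lt
    omega
  have : NeZero (p ^ k - 1) := ⟨hN⟩
  obtain ⟨ζ, hζ⟩ := HasEnoughRootsOfUnity.exists_primitiveRoot Qb (p ^ k - 1)
  have hs1 : s ^ (p ^ k - 1) = 1 := by
    have h1 : s ^ (p ^ k - 1) * s = 1 * s := by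
      rw [← pow_succ, Nat.sub_add_cancel (Nat.one_le_pow _ _ hp.out.pos), hs, one_mul]
    exact mul_right_cancel₀ h0 h1
  obtain ⟨i, -, hi⟩ := (hζ.map_of_injective j.injective).eq_pow_of_pow_eq_one hs1
  exact ⟨ζ ^ i, by rw [map_pow, hi]⟩

/-- The setting. -/
theorem setting_QN (hj : IsEmb A j) (hp2 : p ≠ 2) :
    Setting p (QN j) (A.inertiaSubgroupIn ℚ) where
  prime := hp.out
  odd := hp2
  ultra := ⟨fun x y z => by
    have h1 : ‖(j x - j z)‖ ≤ max ‖(j x - j y)‖ ‖(j y - j z)‖ := by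
      rw [← sub_add_sub_cancel (j x) (j y) (j z)]
      exact IsUltrametricDist.norm_add_le_max _ _
    exact h1⟩
  charZero := inferInstanceAs (CharZero Qb)
  isAlgClosed := inferInstanceAs (IsAlgClosed Qb)
  norm_smul σ x := hj.norm_fix ((ORD.mem_inertia_iff A σ).mp σ.2).1 x
  norm_p := by
    have h1 : ‖((p : ℕ) : QN j)‖ = ‖j ((p : ℕ) : Qb)‖ := rfl
    rw [h1, map_natCast, norm_p']
  norm_smul_sub_lt σ x hx := by
    have h1 := ((ORD.mem_inertia_iff A σ).mp σ.2).2 x ((hj x).mpr hx)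
    exact (hj.lt_iff _).mp h1
  norm_fixed x hx0 hx := by
    have hA : A.LiesOverPrime p := by
      show ((p : ℕ) : Qb) ∈ A.nonunits
      rw [ValuationSubring.mem_nonunits_iff, hj.lt_iff, map_natCast, norm_p']
      exact inv_lt_one_of_one_lt₀ (by exact_mod_cast hp.out.one_lt)
    obtain ⟨n, hn⟩ := SEL.exists_valuation_zpow_of_inertia A hp.out hA (z := x) hx0
      fun g hg => hx ⟨g, hg⟩
    refine ⟨-n, ?_⟩
    have h1 := hj.norm_zpow (x := x) (m := 1) (n := n) hx0 (by rw [pow_one]; exact hn)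
    rw [pow_one] at h1
    exact h1
  exists_fixed_near x hx := by
    obtain ⟨k, hk, s, hs, hxs⟩ := Loc.exists_teich (p := p) (x := j x) hx
    obtain ⟨t, ht⟩ := exists_preimage_teich j hk hs
    refine ⟨t, fun σ => ?_, ?_⟩
    · have h1 := ((ORD.mem_inertia_iff A σ).mp σ.2).2 t ((hj t).mpr (by
        rw [ht]; exact Loc.norm_le_one_of_teich hk hs))
      rw [hj.lt_iff, map_sub] at h1
      have h2 : t ^ p ^ k = t := by
        apply j.injective
        rw [map_pow, ht, hs]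
      have h3 : ((σ : GQ) t) ^ p ^ k = (σ : GQ) t := by rw [← map_pow, h2]
      have h4 : j ((σ : GQ) t) = j t := Loc.teich_ext hk (by rw [← map_pow, h3])
        (by rw [← map_pow, h2]) h1
      exact j.injective h4
    · have h1 : ‖j x - j t‖ < 1 := by rw [ht]; exact hxs
      rw [← map_sub] at h1
      exact h1

end Fermat.Agent.FTau
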